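import Fermat.Agent.HasseEvenOrder.Degree
import Mathlib.Analysis.SpecificLimits.Basic
import Mathlib.GroupTheory.OrderOfElement

/-!
# Hasse's theorem on the prime divisors of the orders modulo primes

The primes modulo which the order of `a` is prime to `q` are the union over `j` of those with
`q ^ j` exactly dividing `p - 1` and `a` a `q ^ j`-th power residue; the tail after `J` terms has
density at most `1 / φ (q ^ J)`.
-/

set_option autoImplicit false
set_option linter.style.haveILetI false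

noncomputable section

open Module Filter Topology FA.ArtinAll
open scoped Classical

namespace FA.HasseEvenOrder

/-- The density of `PowCond a (q ^ i) (q ^ j)`. -/
def dens (a : ℤ) (q i j : ℕ) : ℝ := 1 / finrank ℚ (MixedField a (q ^ i) (q ^ j))

theorem hasPrimeDensity_powCond {a : ℤ} (ha : a ≠ 0) {q i j : ℕ} (hq : q.Prime) (hji : j ≤ i) :
    HasPrimeDensity (PowCond a (q ^ i) (q ^ j)) (dens a q i j) := by
  have := hq.pos
  haveI : NeZero (q ^ i) := ⟨by positivity⟩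
  haveI : NeZero (q ^ j) := ⟨by positivity⟩
  obtain ⟨ζ, α, hζ, hα, htop⟩ := exists_mixed_gens (L := MixedField a (q ^ i) (q ^ j)) ha
    (pow_dvd_pow q hji)
  exact hasPrimeDensity_powCond_of_gens (pow_dvd_pow q hji) ha hζ hα htop

theorem dens_zero {a : ℤ} (ha : a ≠ 0) {q : ℕ} (hq : q.Prime) (i : ℕ) :
    dens a q i 0 = 1 / (q ^ i).totient := by
  have := hq.pos
  haveI : NeZero (q ^ i) := ⟨by positivity⟩
  haveI : NeZero (q ^ 0) := ⟨by positivity⟩
  obtain ⟨ζ, α, hζ, hα, htop⟩ := exists_mixed_gens (L := MixedField a (q ^ i) (q ^ 0)) ha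
    (pow_dvd_pow q (Nat.zero_le i))
  rw [dens, finrank_eq_totient_mul (s := (a : IntermediateField.adjoin ℚ {ζ})) hζ htop
    (n := 1) one_pos (by simp only [pow_zero, pow_one] at hα ⊢; rw [hα]; push_cast; rfl)
    (fun p hp h => absurd (Nat.eq_one_of_dvd_one (by simpa using h)) hp.ne_one)
    (fun h => absurd h (by norm_num)), mul_one]

theorem dens_odd {q : ℕ} (hq : q.Prime) (hq2 : q ≠ 2) {a : ℤ} (ha : ∀ c : ℤ, c ^ q ≠ a)
    {i j : ℕ} (hji : j ≤ i) : dens a q i j = 1 / ((q ^ i).totient * q ^ j : ℕ) := by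
  have := hq.pos
  have ha0 : a ≠ 0 := fun h => ha 0 (by rw [h, zero_pow hq.ne_zero])
  haveI : NeZero (q ^ i) := ⟨by positivity⟩
  haveI : NeZero (q ^ j) := ⟨by positivity⟩
  obtain ⟨ζ, α, hζ, hα, htop⟩ := exists_mixed_gens (L := MixedField a (q ^ i) (q ^ j)) ha0
    (pow_dvd_pow q hji)
  rw [dens, finrank_odd hq hq2 ha hζ hα htop]

theorem dens_two {i j : ℕ} (hji : j ≤ i) : dens 2 2 i j =
    1 / ((2 ^ i).totient * 2 ^ (if 3 ≤ i then j - 1 else j) : ℕ) := by
  haveI : NeZero (2 ^ i) := ⟨by positivity⟩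
  haveI : NeZero (2 ^ j) := ⟨by positivity⟩
  obtain ⟨ζ, α, hζ, hα, htop⟩ := exists_mixed_gens (a := 2) (L := MixedField 2 (2 ^ i) (2 ^ j))
    two_ne_zero (pow_dvd_pow 2 hji)
  replace hα : α ^ 2 ^ j = 2 := hα.trans (Int.cast_ofNat 2)
  split_ifs with hi
  · rcases Nat.eq_zero_or_pos j with rfl | hj
    · rw [dens_zero two_ne_zero Nat.prime_two, Nat.zero_sub, pow_zero, mul_one]
    · rw [dens, finrank_two_of_three_le hi hj hζ hα htop]
  · rw [dens, finrank_two_of_le_two (by omega) hji hζ hα htop]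

/-- `p` does not divide `a` and the order of `a` modulo `p` is prime to `q`. -/
def OrderPrimeTo (a : ℤ) (q p : ℕ) : Prop := ¬ (p : ℤ) ∣ a ∧ ¬ q ∣ orderOf (a : ZMod p)

/-- The `j`-th layer. -/
def Layer (a : ℤ) (q j p : ℕ) : Prop :=
  PowCond a (q ^ j) (q ^ j) p ∧ ¬ PowCond a (q ^ (j + 1)) (q ^ j) p

theorem layer_iff {a : ℤ} {q j p : ℕ} :
    Layer a q j p ↔ q ^ j ∣ p - 1 ∧ ¬ q ^ (j + 1) ∣ p - 1 ∧
      (p : ℤ) ∣ a ^ ((p - 1) / q ^ j) - 1 :=
  ⟨fun ⟨⟨h1, h2⟩, h3⟩ => ⟨h1, fun h => h3 ⟨h, h2⟩, h2⟩,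
    fun ⟨h1, h2, h3⟩ => ⟨⟨h1, h3⟩, fun h => h2 h.1⟩⟩

theorem orderPrimeTo_iff {a : ℤ} {q p : ℕ} (hq : q.Prime) (hp : p.Prime) :
    OrderPrimeTo a q p ↔ ∃ j, Layer a q j p := by
  haveI : Fact p.Prime := ⟨hp⟩
  have hp1 : 0 < p - 1 := Nat.sub_pos_of_lt hp.one_lt
  have hpow : ∀ e : ℕ, (p : ℤ) ∣ a ^ e - 1 ↔ (a : ZMod p) ^ e = 1 := fun e => by
    rw [← ZMod.intCast_zmod_eq_zero_iff_dvd, Int.cast_sub, Int.cast_pow, Int.cast_one, sub_eq_zero]
  simp only [layer_iff, hpow]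
  constructor
  · rintro ⟨hpa, hord⟩
    obtain ⟨j, r, hr, hjr⟩ := Nat.exists_eq_pow_mul_and_not_dvd hp1.ne' q hq.ne_one
    refine ⟨j, ⟨r, hjr⟩, fun ⟨s, hs⟩ => hr ⟨s, ?_⟩, ?_⟩
    · refine Nat.eq_of_mul_eq_mul_left (pow_pos hq.pos j) ?_
      rw [← hjr, hs, pow_succ, mul_assoc]
    · have hne : (a : ZMod p) ≠ 0 := fun h => hpa ((ZMod.intCast_zmod_eq_zero_iff_dvd a p).1 h)
      have hd := orderOf_dvd_of_pow_eq_one (ZMod.pow_card_sub_one_eq_one hne)
      rw [hjr, Nat.mul_div_cancel_left _ (pow_pos hq.pos j)]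
      refine orderOf_dvd_iff_pow_eq_one.1 (Nat.Coprime.dvd_of_dvd_mul_left ?_ (hjr ▸ hd))
      exact ((hq.coprime_iff_not_dvd.2 hord).pow_left j).symm
  · rintro ⟨j, hj, hj', h⟩
    obtain ⟨r, hr⟩ := hj
    rw [hr, Nat.mul_div_cancel_left _ (pow_pos hq.pos j)] at h
    have hr0 : r ≠ 0 := fun e => hp1.ne' (by rw [hr, e, mul_zero])
    refine ⟨fun hpa => ?_, fun hd => hj' ?_⟩
    · rw [(ZMod.intCast_zmod_eq_zero_iff_dvd a p).2 hpa, zero_pow hr0] at h
      exact zero_ne_one h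
    · rw [hr, pow_succ]
      exact mul_dvd_mul_left _ (hd.trans (orderOf_dvd_of_pow_eq_one h))

/-- The first `J` layers. -/
theorem hasPrimeDensity_head {a : ℤ} (ha : a ≠ 0) {q : ℕ} (hq : q.Prime) (J : ℕ) :
    HasPrimeDensity (fun p => ∃ j < J, Layer a q j p)
      (∑ j ∈ Finset.range J, (dens a q j j - dens a q (j + 1) j)) := by
  induction J with
  | zero => simpa using HasPrimeDensity.of_finite (P := fun p => ∃ j < 0, Layer a q j p) (by simp)
  | succ J ih =>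
    rw [Finset.sum_range_succ]
    refine (ih.union ((hasPrimeDensity_powCond ha hq le_rfl).diff
      (hasPrimeDensity_powCond ha hq (Nat.le_succ J))
      fun p _ h => ⟨(pow_dvd_pow q (Nat.le_succ J)).trans h.1, h.2⟩) fun p _ h ⟨j, hj, h'⟩ => ?_
      ).congr fun p _ => ⟨?_, ?_⟩
    · exact (layer_iff.1 h').2.1 ((pow_dvd_pow q hj).trans (layer_iff.1 h).1)
    · rintro (⟨j, hj, h⟩ | h)
      · exact ⟨j, hj.trans (Nat.lt_succ_self J), h⟩
      · exact ⟨J, Nat.lt_succ_self J, h⟩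
    · rintro ⟨j, hj, h⟩
      rcases (Nat.lt_succ_iff.1 hj).lt_or_eq with h' | rfl
      · exact Or.inl ⟨j, h', h⟩
      · exact Or.inr h

theorem tendsto_dens_tail {a : ℤ} (ha : a ≠ 0) {q : ℕ} (hq : q.Prime) :
    Tendsto (fun J => dens a q J 0) atTop (𝓝 0) := by
  refine squeeze_zero (fun J => by unfold dens; positivity) (fun J => ?_)
    ((tendsto_pow_atTop_nhds_zero_of_lt_one (r := (1 / q : ℝ)) (by positivity) (by
      rw [div_lt_one (Nat.cast_pos.2 hq.pos)]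
      exact_mod_cast hq.one_lt)).const_mul 2 |>.trans_eq (by rw [mul_zero]))
  rw [dens_zero ha hq]
  have h : q ^ J ≤ 2 * (q ^ J).totient := by
    rcases J with - | J
    · simp
    rw [Nat.totient_prime_pow hq (Nat.succ_pos J), Nat.succ_sub_one, pow_succ, ← mul_assoc,
      mul_comm 2, mul_assoc]
    exact Nat.mul_le_mul_left _ (by have := hq.two_le; omega)
  have hq0 : (0 : ℝ) < (q : ℝ) ^ J := pow_pos (Nat.cast_pos.2 hq.pos) J
  have ht : (0 : ℝ) < (q ^ J).totient :=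
    Nat.cast_pos.2 (Nat.totient_pos.2 (pow_pos hq.pos J))
  rw [div_pow, one_pow, mul_one_div, div_le_div_iff₀ ht hq0, one_mul]
  exact_mod_cast h

/-- **The density of the primes with order prime to `q`.** -/
theorem hasPrimeDensity_orderPrimeTo {a : ℤ} (ha : a ≠ 0) {q : ℕ} (hq : q.Prime) {δ : ℝ}
    (hδ : Tendsto (fun J => ∑ j ∈ Finset.range J, (dens a q j j - dens a q (j + 1) j)) atTop
      (𝓝 δ)) : HasPrimeDensity (OrderPrimeTo a q) δ := by
  obtain ⟨f, hf⟩ : ∃ f : (ℕ → Prop) → ℕ → ℝ,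
      ∀ P N, f P N = (primeCount P N : ℝ) * Real.log N / N := ⟨_, fun _ _ => rfl⟩
  have hlow : ∀ (J N : ℕ), f (fun p => ∃ j < J, Layer a q j p) N ≤ f (OrderPrimeTo a q) N :=
    fun J N => by
      rw [hf, hf]
      refine div_le_div_of_nonneg_right (mul_le_mul_of_nonneg_right (Nat.cast_le.2
        (primeCount_mono (fun p hp ⟨j, _, h⟩ => ?_) N)) (Real.log_natCast_nonneg N))
        (Nat.cast_nonneg N)
      exact (orderPrimeTo_iff hq hp).2 ⟨j, h⟩
  have hup : ∀ (J N : ℕ), f (OrderPrimeTo a q) N ≤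
      f (fun p => ∃ j < J, Layer a q j p) N + f (PowCond a (q ^ J) (q ^ 0)) N := fun J N => by
    rw [hf, hf, hf, ← add_div, ← add_mul, ← Nat.cast_add]
    refine div_le_div_of_nonneg_right (mul_le_mul_of_nonneg_right (Nat.cast_le.2 ?_)
      (Real.log_natCast_nonneg N)) (Nat.cast_nonneg N)
    rw [← primeCount_add (OrderPrimeTo a q) (fun p => ∃ j < J, Layer a q j p)]
    refine Nat.add_le_add (primeCount_mono (fun p _ h => h.2) N)
      (primeCount_mono (fun p hp h => ?_) N)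
    obtain ⟨j, hj⟩ := (orderPrimeTo_iff hq hp).1 h.1
    have hJ : J ≤ j := not_lt.1 fun hlt => h.2 ⟨j, hlt, hj⟩
    refine ⟨(pow_dvd_pow q hJ).trans (layer_iff.1 hj).1, ?_⟩
    haveI : Fact p.Prime := ⟨hp⟩
    rw [← ZMod.intCast_zmod_eq_zero_iff_dvd, pow_zero, Nat.div_one, Int.cast_sub, Int.cast_pow,
      Int.cast_one, ZMod.pow_card_sub_one_eq_one
        (fun e => h.1.1 ((ZMod.intCast_zmod_eq_zero_iff_dvd a p).1 e)), sub_self]
  have hh : ∀ J, Tendsto (f fun p => ∃ j < J, Layer a q j p) atTop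
      (𝓝 (∑ j ∈ Finset.range J, (dens a q j j - dens a q (j + 1) j))) := fun J =>
    Filter.Tendsto.congr (fun N => (hf _ N).symm) (hasPrimeDensity_head ha hq J)
  have ht : ∀ J, Tendsto (f (PowCond a (q ^ J) (q ^ 0))) atTop (𝓝 (dens a q J 0)) := fun J =>
    Filter.Tendsto.congr (fun N => (hf _ N).symm) (hasPrimeDensity_powCond ha hq (Nat.zero_le J))
  refine Tendsto.congr (fun N => hf _ N) (tendsto_order.2 ⟨fun b hb => ?_, fun b hb => ?_⟩)
  · obtain ⟨J, hJ⟩ := (hδ.eventually (eventually_gt_nhds hb)).exists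
    filter_upwards [(hh J).eventually (eventually_gt_nhds hJ)] with N hN
    exact hN.trans_le (hlow J N)
  · have h := hδ.add (tendsto_dens_tail ha hq)
    rw [add_zero] at h
    obtain ⟨J, hJ⟩ := (h.eventually (eventually_lt_nhds hb)).exists
    filter_upwards [((hh J).add (ht J)).eventually (eventually_lt_nhds hJ)] with N hN
    exact (hup J N).trans_lt hN

/-- The complement. -/
theorem hasPrimeDensity_dvd_order {a : ℤ} (ha : a ≠ 0) {q : ℕ} (hq : q.Prime) {δ : ℝ}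
    (hδ : Tendsto (fun J => ∑ j ∈ Finset.range J, (dens a q j j - dens a q (j + 1) j)) atTop
      (𝓝 δ)) :
    HasPrimeDensity (fun p => ¬ (p : ℤ) ∣ a ∧ q ∣ orderOf (a : ZMod p)) (1 - δ) := by
  have hbad : HasPrimeDensity (fun p => (p : ℤ) ∣ a) 0 :=
    .of_finite (a.natAbs.primeFactors.finite_toSet.subset fun p hp => by
      rw [Finset.mem_coe, Nat.mem_primeFactors]
      exact ⟨hp.1, Int.natCast_dvd.1 hp.2, Int.natAbs_ne_zero.2 ha⟩)
  have h := (hasPrimeDensity_true.diff hbad fun _ _ _ => trivial).diff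
    (hasPrimeDensity_orderPrimeTo ha hq hδ) fun _ _ h => ⟨trivial, h.1⟩
  rw [sub_zero] at h
  refine h.congr fun p _ => ?_
  simp only [OrderPrimeTo, true_and]
  tauto

/-- **Hasse's theorem for an odd prime `q`.** -/
theorem hasPrimeDensity_odd {q : ℕ} (hq : q.Prime) (hq2 : q ≠ 2) {a : ℤ}
    (ha : ∀ c : ℤ, c ^ q ≠ a) :
    HasPrimeDensity (fun p => ¬ (p : ℤ) ∣ a ∧ q ∣ orderOf (a : ZMod p))
      ((q : ℝ) / ((q : ℝ) ^ 2 - 1)) := by
  have ha0 : a ≠ 0 := fun h => ha 0 (by rw [h, zero_pow hq.ne_zero])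
  have hqR : (2 : ℝ) ≤ q := by exact_mod_cast hq.two_le
  obtain ⟨r, hr⟩ : ∃ r : ℝ, r = 1 / (q : ℝ) ^ 2 := ⟨_, rfl⟩
  have hr1 : r < 1 := by rw [hr, div_lt_one (by positivity)]; nlinarith
  have hterm : ∀ j, dens a q (j + 1) (j + 1) - dens a q (j + 1 + 1) (j + 1) = r * r ^ j := by
    intro j
    rw [dens_odd hq hq2 ha le_rfl, dens_odd hq hq2 ha (Nat.le_succ _),
      Nat.totient_prime_pow hq (Nat.succ_pos _), Nat.totient_prime_pow hq (Nat.succ_pos _),
      Nat.succ_sub_one, Nat.succ_sub_one, hr, div_pow, one_pow]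
    push_cast [Nat.cast_sub hq.one_le]
    have : (q : ℝ) - 1 ≠ 0 := by linarith
    simp only [pow_succ]
    field_simp
    ring
  have h0 : dens a q 0 0 - dens a q 1 0 = 1 - 1 / ((q : ℝ) - 1) := by
    rw [dens_zero ha0 hq, dens_zero ha0 hq, pow_zero, Nat.totient_one, pow_one,
      Nat.totient_prime hq, Nat.cast_one, div_one, Nat.cast_sub hq.one_le, Nat.cast_one]
  have hsum := (((hasSum_geometric_of_lt_one (by rw [hr]; positivity) hr1).mul_left r
    ).tendsto_sum_nat).add_const (1 - 1 / ((q : ℝ) - 1))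
  have hlim : Tendsto (fun J => ∑ j ∈ Finset.range J, (dens a q j j - dens a q (j + 1) j)) atTop
      (𝓝 (1 - (q : ℝ) / ((q : ℝ) ^ 2 - 1))) := by
    have he : 1 - (q : ℝ) / ((q : ℝ) ^ 2 - 1) = r * (1 - r)⁻¹ + (1 - 1 / ((q : ℝ) - 1)) := by
      rw [hr]
      have h1 : (q : ℝ) - 1 ≠ 0 := by linarith
      have h2 : (q : ℝ) ^ 2 - 1 ≠ 0 := by nlinarith
      field_simp
      ring
    rw [← tendsto_add_atTop_iff_nat 1, he]
    refine hsum.congr fun J => ?_
    rw [Finset.sum_range_succ', h0]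
    exact congrArg (· + _) (Finset.sum_congr rfl fun j _ => (hterm j).symm)
  have := hasPrimeDensity_dvd_order ha0 hq hlim
  rwa [sub_sub_cancel] at this

/-- **Hasse: the order of two is even for `17 / 24` of the primes.** -/
theorem hasPrimeDensity_two :
    HasPrimeDensity (fun p => ¬ (p : ℤ) ∣ 2 ∧ 2 ∣ orderOf ((2 : ℤ) : ZMod p)) (17 / 24) := by
  obtain ⟨T, hT⟩ : ∃ T : ℕ → ℝ, ∀ j, T j = dens 2 2 j j - dens 2 2 (j + 1) j := ⟨_, fun _ => rfl⟩
  have hterm : ∀ j, T (j + 3) = 1 / 32 * (1 / 4) ^ j := by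
    intro j
    rw [hT, dens_two le_rfl, dens_two (Nat.le_succ _), if_pos (by omega), if_pos (by omega),
      Nat.totient_prime_pow Nat.prime_two (by omega : 0 < j + 3),
      Nat.totient_prime_pow Nat.prime_two (by omega : 0 < j + 3 + 1),
      show j + 3 - 1 = j + 2 by omega, show j + 3 + 1 - 1 = j + 3 by omega,
      div_pow, one_pow, show (4 : ℝ) = 2 ^ 2 by norm_num, ← pow_mul, mul_comm 2 j, pow_mul]
    push_cast
    simp only [pow_add]
    field_simp
    ring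
  have hhead : ∑ j ∈ Finset.range 3, T j = 1 / 4 := by
    simp only [Finset.sum_range_succ, Finset.sum_range_zero, hT]
    rw [dens_two le_rfl, dens_two (show 0 ≤ 0 + 1 by omega), dens_two le_rfl,
      dens_two (show 1 ≤ 1 + 1 by omega), dens_two le_rfl, dens_two (show 2 ≤ 2 + 1 by omega)]
    norm_num [show Nat.totient 4 = 2 by decide, show Nat.totient 8 = 4 by decide]
  have hsum := (((hasSum_geometric_of_lt_one (show (0 : ℝ) ≤ 1 / 4 by norm_num)
    (by norm_num)).mul_left (1 / 32)).tendsto_sum_nat).const_add (1 / 4)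
  have hlim : Tendsto (fun J => ∑ j ∈ Finset.range J, (dens 2 2 j j - dens 2 2 (j + 1) j)) atTop
      (𝓝 (7 / 24)) := by
    simp only [← hT]
    rw [← tendsto_add_atTop_iff_nat 3, show (7 / 24 : ℝ) = 1 / 4 + 1 / 32 * (1 - 1 / 4)⁻¹ by
      norm_num]
    refine hsum.congr fun J => ?_
    rw [add_comm J 3, Finset.sum_range_add, hhead]
    exact congrArg _ (Finset.sum_congr rfl fun j _ => by rw [add_comm 3 j, hterm])
  have := hasPrimeDensity_dvd_order (a := 2) two_ne_zero Nat.prime_two hlim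
  rwa [show (1 : ℝ) - 7 / 24 = 17 / 24 by norm_num] at this

/-- The prime divisors of the numbers `2 ^ n + 1`. -/
theorem hasPrimeDensity_dvd_two_pow_add_one :
    HasPrimeDensity (fun p => ∃ n : ℕ, p ∣ 2 ^ n + 1) (17 / 24) := by
  have h2 : HasPrimeDensity (fun p => p = 2) 0 :=
    .of_finite ((Set.finite_singleton 2).subset fun p hp => hp.2)
  have h := hasPrimeDensity_two.union h2 fun p _ e h => h.1 (by subst e; exact dvd_rfl)
  rw [add_zero] at h
  refine h.congr fun p hp => ?_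
  rcases eq_or_ne p 2 with rfl | hp2
  · exact ⟨fun _ => ⟨0, by norm_num⟩, fun _ => Or.inr rfl⟩
  haveI : Fact p.Prime := ⟨hp⟩
  have hpd : ¬ (p : ℤ) ∣ 2 := fun e => hp2 ((Nat.prime_dvd_prime_iff_eq hp Nat.prime_two).1
    (by exact_mod_cast e))
  rw [Int.cast_ofNat]
  constructor
  · rintro (⟨-, m, hm⟩ | e)
    · refine ⟨m, ?_⟩
      rw [← ZMod.natCast_eq_zero_iff, Nat.cast_add, Nat.cast_pow, Nat.cast_ofNat, Nat.cast_one]
      have h20 : (2 : ZMod p) ≠ 0 := fun e => hpd (by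
        rw [← ZMod.intCast_zmod_eq_zero_iff_dvd]; exact_mod_cast e)
      have hpos : 0 < orderOf (2 : ZMod p) := orderOf_pos_iff.2
        (isOfFinOrder_iff_pow_eq_one.2 ⟨p - 1, Nat.sub_pos_of_lt hp.one_lt,
          ZMod.pow_card_sub_one_eq_one h20⟩)
      have hsq : ((2 : ZMod p) ^ m) ^ 2 = 1 := by
        rw [← pow_mul, mul_comm, ← hm, pow_orderOf_eq_one]
      rcases sq_eq_one_iff.1 hsq with h' | h'
      · exact absurd (Nat.le_of_dvd (by omega) (orderOf_dvd_of_pow_eq_one h')) (by omega)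
      · rw [h', neg_add_cancel]
    · exact absurd e hp2
  · rintro ⟨n, hn⟩
    refine Or.inl ⟨hpd, ?_⟩
    rw [← ZMod.natCast_eq_zero_iff, Nat.cast_add, Nat.cast_pow, Nat.cast_ofNat, Nat.cast_one,
      add_eq_zero_iff_eq_neg] at hn
    by_contra hodd
    have hd : orderOf (2 : ZMod p) ∣ n := (Nat.prime_two.coprime_iff_not_dvd.2 hodd).symm
      |>.dvd_of_dvd_mul_left (orderOf_dvd_of_pow_eq_one (by rw [mul_comm, pow_mul, hn]; ring))
    have h1 : (-1 : ZMod p) = 1 := by rw [← hn]; exact orderOf_dvd_iff_pow_eq_one.1 hd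
    exact hpd (by
      rw [← ZMod.intCast_zmod_eq_zero_iff_dvd]
      push_cast
      linear_combination -h1)

end FA.HasseEvenOrder

end
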