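import Fermat.Agent.HasseEvenOrder.Density
import Fermat.Agent.ArtinAllBases.Field

/-!
# The primes of degree one in a mixed Kummer field

In `L = ℚ(ζ_M, α)`, `α ^ k = a`, `k ∣ M`, the primes `p` prime to `M a` that are norms are those
with `M ∣ p - 1` and `a ^ ((p - 1) / k) ≡ 1 (mod p)`.
-/

set_option autoImplicit false
set_option linter.style.haveILetI false

noncomputable section

open Polynomial NumberField IsDedekindDomain Module Ideal
open scoped Classical

namespace FA.HasseEvenOrder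

/-- `p ≡ 1 (mod M)` and `a` is a `k`-th power residue modulo `p`. -/
def PowCond (a : ℤ) (M k p : ℕ) : Prop := M ∣ p - 1 ∧ (p : ℤ) ∣ a ^ ((p - 1) / k) - 1

variable {L : Type} [Field L] [NumberField L] [IsGalois ℚ L] {a : ℤ} {M k : ℕ} [NeZero M]
  [NeZero k] {ζ α : L}

theorem absNorm_eq_prime_iff (hkM : k ∣ M) (ha : a ≠ 0) (hζ : IsPrimitiveRoot ζ M)
    (hα : α ^ k = (a : L)) (htop : IntermediateField.adjoin ℚ {ζ, α} = ⊤)
    {p : ℕ} (hp : p.Prime) (hpM : ¬ p ∣ M) (hpa : ¬ (p : ℤ) ∣ a)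
    {Q : Ideal (𝓞 L)} [Q.IsMaximal]
    (hpQ : (p : 𝓞 L) ∈ Q) : absNorm Q = p ↔ PowCond a M k p := by
  haveI : Fact p.Prime := ⟨hp⟩
  obtain ⟨z, hz⟩ : ∃ z : 𝓞 L, (z : L) = ζ :=
    ⟨hζ.toInteger, rfl⟩
  obtain ⟨x, hx⟩ : ∃ x : 𝓞 L, (x : L) = α :=
    ⟨⟨α, IsIntegral.of_pow (NeZero.pos k) (by
      rw [hα]; exact isIntegral_algebraMap (R := ℤ) (A := L) (x := a))⟩, rfl⟩
  have hxk : x ^ k = (a : 𝓞 L) := RingOfIntegers.ext (by
    simp only [map_pow, map_intCast]
    exact (congrArg (· ^ k) hx).trans hα)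
  have hzp : IsPrimitiveRoot z M := by
    refine IsPrimitiveRoot.of_map_of_injective (f := algebraMap _ L) ?_
      RingOfIntegers.coe_injective
    rw [show algebraMap (𝓞 L) L z = ζ from hz]
    exact hζ
  have hne : Q ≠ ⊥ := fun e => hp.ne_zero (by rw [e, Ideal.mem_bot] at hpQ; exact_mod_cast hpQ)
  haveI : Finite (𝓞 L ⧸ Q) := Ideal.finiteQuotientOfFreeOfNeBot _ hne
  letI := Ideal.Quotient.field Q
  haveI : CharP (𝓞 L ⧸ Q) p := (CharP.charP_iff_prime_eq_zero hp).2 (by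
    rw [← map_natCast (Ideal.Quotient.mk Q), Ideal.Quotient.eq_zero_iff_mem]
    exact hpQ)
  obtain ⟨π, hπ⟩ : ∃ π : 𝓞 L →+* 𝓞 L ⧸ Q,
      π = Ideal.Quotient.mk Q := ⟨_, rfl⟩
  haveI : NeZero ((M : ℕ) : 𝓞 L ⧸ Q) :=
    ⟨fun e => hpM ((CharP.cast_eq_zero_iff _ p M).1 e)⟩
  have hzQ : IsPrimitiveRoot (π z) M := by
    rw [← isRoot_cyclotomic_iff]
    have := (hzp.isRoot_cyclotomic (NeZero.pos M)).map (f := π)
    rwa [map_cyclotomic] at this
  have haQ : ((a : ℤ) : 𝓞 L ⧸ Q) ≠ 0 := fun e =>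
    hpa ((CharP.intCast_eq_zero_iff _ p a).1 e)
  have hxQ : π x ≠ 0 := fun e => haQ (by
    rw [← map_intCast π a, ← hxk, map_pow, e, zero_pow (NeZero.ne k)])
  constructor
  · intro h
    rw [Ideal.absNorm_apply, Submodule.cardQuot_apply] at h
    cases nonempty_fintype (𝓞 L ⧸ Q)
    rw [Nat.card_eq_fintype_card] at h
    have hpow : ∀ y : 𝓞 L ⧸ Q, y ≠ 0 → y ^ (p - 1) = 1 := fun y hy =>
      h ▸ FiniteField.pow_card_sub_one_eq_one y hy
    have hdvd : M ∣ p - 1 := (hzQ.pow_eq_one_iff_dvd _).1 (hpow _ (hzQ.ne_zero (NeZero.ne M)))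
    refine ⟨hdvd, (CharP.intCast_eq_zero_iff (𝓞 L ⧸ Q) p _).1 ?_⟩
    rw [Int.cast_sub, Int.cast_pow, Int.cast_one, ← map_intCast π a, ← hxk, map_pow, ← pow_mul,
      Nat.mul_div_cancel' (hkM.trans hdvd), hpow _ hxQ, sub_self]
  · rintro ⟨hdvd, hdiv⟩
    obtain ⟨σ, hσ⟩ := IsArithFrobAt.exists_of_isInvariant ℤ
      (L ≃ₐ[ℚ] L) Q
    have hcard := FA.FrobeniusDensity.card_quotient_under hp (Ideal.IsMaximal.ne_top ‹_›) hpQ
    have hfrob : ∀ y, π (σ • y) = π y ^ p := fun y => by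
      rw [hπ, ← map_pow, Ideal.Quotient.eq, ← hcard]
      exact hσ y
    have hpow : ∀ {G : Type} [Monoid G] (u : G), u ^ (p - 1) = 1 → u ^ p = u := fun {G} _ u hu => by
      rw [show p = p - 1 + 1 by have := hp.pos; omega, pow_succ, hu, one_mul]
    have hkey : ∀ y : 𝓞 L, y ^ M = z ^ 0 → π y ^ p = π y → σ • y = y :=
      fun y hy hyp => by
      rw [pow_zero] at hy
      obtain ⟨i, hi, hzi⟩ := hzp.eq_pow_of_pow_eq_one (ξ := y) hy
      obtain ⟨j, hj, hzj⟩ := hzp.eq_pow_of_pow_eq_one (ξ := σ • y) (by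
        rw [← smul_pow', hy, smul_one])
      have := hfrob y
      rw [hyp, ← hzj, ← hzi, map_pow, map_pow] at this
      rw [← hzj, ← hzi, hzQ.pow_inj hj hi this]
    have hσz : σ • z = z := hkey z (by rw [pow_zero, hzp.pow_eq_one]) (hpow _ (by
      rw [← Nat.mul_div_cancel' hdvd, pow_mul, hzQ.pow_eq_one, one_pow]))
    have hap : π x ^ (p - 1) = 1 := by
      rw [← Nat.mul_div_cancel' (hkM.trans hdvd), pow_mul, ← map_pow, hxk, map_intCast π a]
      have := (CharP.intCast_eq_zero_iff (𝓞 L ⧸ Q) p _).2 hdiv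
      rwa [Int.cast_sub, Int.cast_pow, Int.cast_one, sub_eq_zero] at this
    have hx0 : (x : L) ≠ 0 := fun e => hxQ (by
      rw [show x = 0 from RingOfIntegers.coe_injective (e.trans (map_zero _).symm), map_zero])
    have hσx : σ • x = x := by
      obtain ⟨i, hi, hzi⟩ := hζ.eq_pow_of_pow_eq_one (ξ := σ (x : L) / x) (by
        obtain ⟨d, hd⟩ := hkM
        rw [hd, pow_mul, div_pow, ← map_pow, show (x : L) ^ k = a from
          (congrArg (· ^ k) hx).trans hα, map_intCast σ a,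
          div_self (Int.cast_ne_zero.2 ha), one_pow])
      have hxz : σ • x = z ^ i * x := RingOfIntegers.coe_injective (by
        rw [map_mul, map_pow]
        show σ (x : L) = (z : L) ^ i * (x : L)
        rw [hz, hzi, div_mul_cancel₀ _ hx0])
      have := hfrob x
      rw [hpow _ hap, hxz, map_mul, map_pow, mul_eq_right₀ hxQ, hzQ.pow_eq_one_iff_dvd] at this
      have hi0 : i = 0 := Nat.eq_zero_of_dvd_of_lt this hi
      rw [hxz, hi0, pow_zero, one_mul]
    have hσ1 : ∀ y : L, σ y = y := fun y => by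
      have hy : y ∈ IntermediateField.adjoin ℚ {ζ, α} := htop ▸ IntermediateField.mem_top
      induction hy using IntermediateField.adjoin_induction with
      | mem r hr =>
        rcases hr with rfl | hr
        · rw [← hz]
          exact congrArg (fun t : 𝓞 L => (t : L)) hσz
        · rw [Set.mem_singleton_iff] at hr
          rw [hr, ← hx]
          exact congrArg (fun t : 𝓞 L => (t : L)) hσx
      | algebraMap q => exact σ.commutes q
      | add r s _ _ h1 h2 => rw [map_add, h1, h2]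
      | inv r _ h1 => rw [map_inv₀, h1]
      | mul r s _ _ h1 h2 => rw [map_mul, h1, h2]
    cases nonempty_fintype (𝓞 L ⧸ Q)
    have hall : ∀ y : 𝓞 L ⧸ Q, y ^ p = y := fun y => by
      obtain ⟨w, rfl⟩ := Ideal.Quotient.mk_surjective y
      rw [← hπ, ← hfrob, show σ • w = w from RingOfIntegers.coe_injective (hσ1 w)]
    have hle : Fintype.card (𝓞 L ⧸ Q) ≤ p := by
      have hsub : (Finset.univ : Finset (𝓞 L ⧸ Q)).val ⊆
          (X ^ p - X : (𝓞 L ⧸ Q)[X]).roots := fun y _ => by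
        rw [mem_roots (FiniteField.X_pow_card_sub_X_ne_zero _ hp.one_lt)]
        simp [hall y]
      refine (card_le_degree_of_subset_roots hsub).trans ?_
      rw [FiniteField.X_pow_card_sub_X_natDegree_eq _ hp.one_lt]
    obtain ⟨f, hp', hf⟩ := FiniteField.card (𝓞 L ⧸ Q) p
    rw [Ideal.absNorm_apply, Submodule.cardQuot_apply, Nat.card_eq_fintype_card]
    refine le_antisymm hle ?_
    rw [hf]
    exact Nat.le_self_pow f.ne_zero p

/-- The primes that are norms. -/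
theorem isNorm_iff (hkM : k ∣ M) (ha : a ≠ 0) (hζ : IsPrimitiveRoot ζ M)
    (hα : α ^ k = (a : L)) (htop : IntermediateField.adjoin ℚ {ζ, α} = ⊤)
    {p : ℕ} (hp : p.Prime) (hpM : ¬ p ∣ M) (hpa : ¬ (p : ℤ) ∣ a) :
    IsNorm L p ↔ PowCond a M k p := by
  constructor
  · rintro ⟨v, hv⟩
    haveI := v.isMaximal
    exact (absNorm_eq_prime_iff hkM ha hζ hα htop hp hpM hpa
      (Q := v.asIdeal) (by simpa [hv] using Ideal.absNorm_mem v.asIdeal)).1 hv
  · intro h
    haveI : (span {(p : ℤ)}).IsMaximal :=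
      PrincipalIdealRing.isMaximal_of_irreducible (Nat.prime_iff_prime_int.1 hp).irreducible
    obtain ⟨Q, hQmax, hQ⟩ := Ideal.exists_maximal_ideal_liesOver_of_isIntegral
      (S := 𝓞 L) (span {(p : ℤ)})
    have hpQ : (p : 𝓞 L) ∈ Q := by
      have h := Ideal.mem_span_singleton_self (p : ℤ)
      rw [hQ.over, Ideal.under, Ideal.mem_comap, map_natCast] at h
      exact h
    refine ⟨⟨Q, hQmax.isPrime, fun e => hp.ne_zero ?_⟩,
      (absNorm_eq_prime_iff hkM ha hζ hα htop hp hpM hpa hpQ).2 h⟩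
    rw [e, Ideal.mem_bot] at hpQ
    exact_mod_cast hpQ

/-- **The density of `PowCond`.** -/
theorem hasPrimeDensity_powCond_of_gens (hkM : k ∣ M) (ha : a ≠ 0) (hζ : IsPrimitiveRoot ζ M)
    (hα : α ^ k = (a : L)) (htop : IntermediateField.adjoin ℚ {ζ, α} = ⊤) :
    HasPrimeDensity (PowCond a M k) (1 / finrank ℚ L) := by
  have hfin : ∀ P : ℕ → Prop, {p : ℕ | p.Prime ∧ (P p ∧ p ∣ M * a.natAbs)}.Finite := fun P =>
    ((M * a.natAbs).primeFactors.finite_toSet).subset fun p hp => by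
      rw [Finset.mem_coe, Nat.mem_primeFactors]
      exact ⟨hp.1, hp.2.2, Nat.mul_ne_zero (NeZero.ne M) (Int.natAbs_ne_zero.2 ha)⟩
  have h1 := (hasPrimeDensity_isNorm L).diff
    (HasPrimeDensity.of_finite (hfin (IsNorm L))) fun p _ h => h.1
  rw [sub_zero] at h1
  have h2 := (h1.congr (P' := fun p => PowCond a M k p ∧ ¬ p ∣ M * a.natAbs) fun p hp => ?_).union
    (HasPrimeDensity.of_finite (hfin (PowCond a M k))) fun p _ h h' => h'.2 h.2
  · rw [add_zero] at h2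
    exact h2.congr fun p _ => ⟨fun h => h.elim (fun h => h.1) fun h => h.1, fun h => by
      by_cases hd : p ∣ M * a.natAbs
      · exact Or.inr ⟨h, hd⟩
      · exact Or.inl ⟨h, hd⟩⟩
  by_cases hd : p ∣ M * a.natAbs
  · exact ⟨fun h => absurd ⟨h.1, hd⟩ h.2, fun h => absurd hd h.2⟩
  have hpM : ¬ p ∣ M := fun e => hd (e.mul_right _)
  have hpa : ¬ (p : ℤ) ∣ a := fun e => hd ((Int.natCast_dvd.1 e).mul_left _)
  rw [isNorm_iff hkM ha hζ hα htop hp hpM hpa]
  exact ⟨fun h => ⟨h.1, hd⟩, fun h => ⟨h.1, fun h' => hd h'.2⟩⟩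

end FA.HasseEvenOrder

end
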