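import Fermat.Agent.HasseEvenOrder.Criterion
import Fermat.Agent.Root.SummaryCapelli
import Mathlib.NumberTheory.NumberField.Cyclotomic.Basic

/-!
# The degrees of `ℚ(ζ_{q ^ i}, a ^ (1 / q ^ j))`

For odd `q` and `a` not a `q`th power the degree is `φ (q ^ i) q ^ j`. For `q = 2 = a` it is that
for `i ≤ 2` and half of it for `i ≥ 3`, `j ≥ 1`, as `√2 ∈ ℚ(ζ₈)`.
-/

set_option autoImplicit false
set_option linter.style.haveILetI false

noncomputable section

open Polynomial NumberField Module IntermediateField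
open scoped Classical

namespace FA.HasseEvenOrder

variable {L : Type} [Field L] [NumberField L] {M : ℕ} [NeZero M] {ζ x : L}

/-- The degree when `x` is a radical over the cyclotomic field. -/
theorem finrank_eq_totient_mul (hζ : IsPrimitiveRoot ζ M)
    (htop : adjoin ℚ {ζ, x} = ⊤) {n : ℕ} (hn : 0 < n) {s : adjoin ℚ {ζ}}
    (hx : x ^ n = (s : L)) (hp : ∀ p : ℕ, p.Prime → p ∣ n → ∀ b : adjoin ℚ {ζ}, b ^ p ≠ s)
    (h4 : 4 ∣ n → ∀ b : adjoin ℚ {ζ}, s ≠ -(4 * b ^ 4)) :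
    finrank ℚ L = M.totient * n := by
  haveI : IsCyclotomicExtension {M} ℚ (adjoin ℚ {ζ}) :=
    hζ.intermediateField_adjoin_isCyclotomicExtension ℚ
  have htopM : adjoin (adjoin ℚ {ζ}) {x} = ⊤ := by
    apply IntermediateField.restrictScalars_injective ℚ
    rw [IntermediateField.restrictScalars_top, eq_top_iff, ← htop, IntermediateField.adjoin_le_iff]
    intro r hr
    rcases hr with rfl | hr
    · rw [SetLike.mem_coe, IntermediateField.mem_restrictScalars]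
      exact IntermediateField.algebraMap_mem _
        (⟨r, IntermediateField.mem_adjoin_simple_self ℚ r⟩ : adjoin ℚ {r})
    · rw [Set.mem_singleton_iff] at hr
      rw [hr, SetLike.mem_coe, IntermediateField.mem_restrictScalars]
      exact IntermediateField.mem_adjoin_simple_self _ x
  rw [← Module.finrank_mul_finrank ℚ (adjoin ℚ {ζ}) L,
    IsCyclotomicExtension.Rat.finrank M (adjoin ℚ {ζ}), ← finrank_top', ← htopM,
    FA.Summary.radical_degree hn (a := s) hx hp h4]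

/-- `X ^ n - 2` is the minimal polynomial of an `n`th root of two, `n = 2 ^ e`. -/
theorem minpoly_root_two {b : L} {e : ℕ} (hb : b ^ 2 ^ e = 2) :
    minpoly ℚ b = X ^ 2 ^ e - C 2 := by
  have hirr : Irreducible (X ^ 2 ^ e - C (2 : ℚ)) := by
    rw [FA.Summary.vahlen_capelli (by positivity)]
    refine ⟨fun p hp hpd c hc => ?_, fun _ c hc => ?_⟩
    · obtain rfl := (Nat.prime_dvd_prime_iff_eq hp Nat.prime_two).1 (hp.dvd_of_dvd_pow hpd)
      refine irrational_sqrt_two ⟨|c|, ?_⟩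
      rw [Rat.cast_abs, eq_comm, Real.sqrt_eq_iff_mul_self_eq (by norm_num) (abs_nonneg _),
        abs_mul_abs_self, ← sq]
      exact_mod_cast hc.symm
    · nlinarith [sq_nonneg (c ^ 2)]
  exact (minpoly.eq_of_irreducible_of_monic hirr (by simp [hb])
    (monic_X_pow_sub_C _ (by positivity))).symm

/-- The field generated by a root of two of order `2 ^ e` has a real embedding. -/
theorem exists_real_hom {b : L} {e : ℕ} (hb : b ^ 2 ^ e = 2) :
    Nonempty (ℚ⟮b⟯ →ₐ[ℚ] ℝ) := by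
  obtain ⟨r, hr⟩ : ∃ r : ℝ, r ^ 2 ^ e = 2 :=
    ⟨(2 : ℝ) ^ ((2 ^ e : ℕ) : ℝ)⁻¹, Real.rpow_inv_natCast_pow two_pos.le (by positivity)⟩
  refine ⟨(algHomAdjoinIntegralEquiv ℚ (Algebra.IsIntegral.isIntegral b)).symm ⟨r, ?_⟩⟩
  rw [minpoly_root_two hb, mem_aroots]
  exact ⟨X_pow_sub_C_ne_zero (by positivity) _, by simp [hr]⟩

omit [NeZero M] in
/-- No fourth root of two lies in a cyclotomic field. -/
theorem no_fourth_root [IsCyclotomicExtension {M} ℚ L] (b : L) : b ^ 4 ≠ 2 := fun hb => by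
  haveI : IsAbelianGalois ℚ L := IsCyclotomicExtension.isAbelianGalois {M} ℚ L
  obtain ⟨β, hβ⟩ : ∃ β : ℚ⟮b⟯, (β : L) = b :=
    ⟨⟨b, IntermediateField.mem_adjoin_simple_self ℚ b⟩, rfl⟩
  haveI : IsAbelianGalois ℚ ℚ⟮b⟯ := IsAbelianGalois.of_algHom ℚ⟮b⟯.val
  have hmin : minpoly ℚ β = X ^ 4 - C 2 := by
    rw [← minpoly.algebraMap_eq (algebraMap ℚ⟮b⟯ L).injective,
      show algebraMap ℚ⟮b⟯ L β = b from hβ]
    exact minpoly_root_two (e := 2) hb
  obtain ⟨φ⟩ := exists_real_hom (e := 2) hb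
  have hsep : (minpoly ℚ β).Separable := Algebra.IsSeparable.isSeparable ℚ β
  have hcard : Fintype.card ((minpoly ℚ β).rootSet ℚ⟮b⟯) = 4 := by
    rw [card_rootSet_eq_natDegree hsep (IsGalois.splits ℚ β), hmin, natDegree_X_pow_sub_C]
  obtain ⟨r, hr⟩ : ∃ r : ℝ, r = √(√2) := ⟨_, rfl⟩
  have hsub : ∀ y ∈ (minpoly ℚ β).rootSet ℚ⟮b⟯, φ y ∈ ({r, -r} : Finset ℝ) := fun y hy => by
    have h := (mem_rootSet.1 hy).2
    rw [hmin] at h
    simp only [map_sub, map_pow, aeval_X, aeval_C, sub_eq_zero] at h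
    have h4 : φ y ^ 4 = 2 := by rw [← map_pow, h, AlgHom.commutes]; norm_num
    have h2 : φ y ^ 2 = √2 :=
      ((Real.sqrt_eq_iff_mul_self_eq two_pos.le (sq_nonneg _)).2 (by rw [← h4]; ring)).symm
    have h3 : |φ y| = r := by rw [hr, ← h2, Real.sqrt_sq_eq_abs]
    rcases abs_choice (φ y) with h5 | h5 <;> rw [h5] at h3 <;> simp [← h3]
  have := Finset.card_le_card_of_injOn φ (s := ((minpoly ℚ β).rootSet ℚ⟮b⟯).toFinset)
    (fun y hy => hsub y (Set.mem_toFinset.1 hy)) φ.injective.injOn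
  rw [Set.toFinset_card, hcard] at this
  exact absurd (this.trans Finset.card_le_two) (by norm_num)

/-- `2` is no square in `ℚ` and in `ℚ(i)`. -/
theorem two_not_sq_of_le_two {i : ℕ} (hi : i ≤ 2) {ω : L} (hω : IsPrimitiveRoot ω (2 ^ i))
    (b : adjoin ℚ {ω}) : b ^ 2 ≠ 2 := fun hb => by
  haveI : IsCyclotomicExtension {2 ^ i} ℚ (adjoin ℚ {ω}) :=
    hω.intermediateField_adjoin_isCyclotomicExtension ℚ
  have hbL : (b : L) ^ 2 ^ 1 = 2 := by
    rw [pow_one]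
    exact congrArg (fun t : adjoin ℚ {ω} => (t : L)) hb
  have hd : finrank ℚ ℚ⟮(b : L)⟯ = 2 := by
    rw [IntermediateField.adjoin.finrank (Algebra.IsIntegral.isIntegral (b : L)),
      minpoly_root_two hbL, natDegree_X_pow_sub_C, pow_one]
  have hle : ℚ⟮(b : L)⟯ ≤ adjoin ℚ {ω} := by
    rw [IntermediateField.adjoin_simple_le_iff]; exact b.2
  have hω2 : finrank ℚ (adjoin ℚ {ω}) = (2 ^ i).totient :=
    IsCyclotomicExtension.Rat.finrank (2 ^ i) (adjoin ℚ {ω})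
  rcases (show i = 0 ∨ i = 1 ∨ i = 2 by omega) with rfl | rfl | rfl
  · rw [show ((2 : ℕ) ^ 0).totient = 1 by decide] at hω2
    have := LinearMap.finrank_le_finrank_of_injective
      (f := (IntermediateField.inclusion hle).toLinearMap)
      (IntermediateField.inclusion_injective hle)
    omega
  · rw [show ((2 : ℕ) ^ 1).totient = 1 by decide] at hω2
    have := LinearMap.finrank_le_finrank_of_injective
      (f := (IntermediateField.inclusion hle).toLinearMap)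
      (IntermediateField.inclusion_injective hle)
    omega
  have heq : ℚ⟮(b : L)⟯ = adjoin ℚ {ω} :=
    IntermediateField.eq_of_le_of_finrank_eq hle (by rw [hd, hω2]; decide)
  obtain ⟨φ⟩ := exists_real_hom hbL
  obtain ⟨w, hw⟩ : ∃ w : ℚ⟮(b : L)⟯, (w : L) = ω :=
    ⟨⟨ω, by rw [heq]; exact IntermediateField.mem_adjoin_simple_self ℚ ω⟩, rfl⟩
  have hw2 : w ^ 2 = -1 := by
    have h := (hω.pow (by norm_num) (show (2 : ℕ) ^ 2 = 2 * 2 by norm_num)).eq_neg_one_of_two_right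
    exact Subtype.ext (by push_cast; rw [hw]; exact h)
  have := congrArg φ hw2
  rw [map_pow, map_neg, map_one] at this
  linarith [sq_nonneg (φ w)]

/-- In a cyclotomic field with `√2` and `√-1` the tower of roots of two is as large as possible. -/
theorem finrank_two_of_three_le {i j : ℕ} (hi : 3 ≤ i) (hj : 1 ≤ j) {α : L} {ω : L}
    (hω : IsPrimitiveRoot ω (2 ^ i)) (hα : α ^ 2 ^ j = 2)
    (htop : adjoin ℚ {ω, α} = ⊤) : finrank ℚ L = (2 ^ i).totient * 2 ^ (j - 1) := by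
  haveI : IsCyclotomicExtension {2 ^ i} ℚ (adjoin ℚ {ω}) :=
    hω.intermediateField_adjoin_isCyclotomicExtension ℚ
  obtain ⟨η, hη⟩ : ∃ η, η = ω ^ 2 ^ (i - 3) := ⟨_, rfl⟩
  have hη8 : IsPrimitiveRoot η 8 := hη ▸ hω.pow (by positivity) (by
    rw [show (8 : ℕ) = 2 ^ 3 by norm_num, ← pow_add, Nat.sub_add_cancel hi])
  have hη4 : η ^ 4 = -1 := (hη8.pow (by norm_num)
    (show (8 : ℕ) = 4 * 2 by norm_num)).eq_neg_one_of_two_right
  have hηm : η ∈ adjoin ℚ {ω} :=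
    hη ▸ pow_mem (IntermediateField.mem_adjoin_simple_self ℚ ω) _
  have h2 : (η + η ^ 7) ^ 2 = 2 := by
    linear_combination (2 * η ^ 4 - 2 + η ^ 10 - η ^ 6 + η ^ 2) * hη4
  have hsq : (α ^ 2 ^ (j - 1)) ^ 2 = (η + η ^ 7) ^ 2 := by
    rw [h2, ← pow_mul, ← pow_succ, Nat.sub_add_cancel hj, hα]
  have hmem : α ^ 2 ^ (j - 1) ∈ adjoin ℚ {ω} := by
    rcases sq_eq_sq_iff_eq_or_eq_neg.1 hsq with h | h <;> rw [h]
    · exact add_mem hηm (pow_mem hηm _)
    · exact neg_mem (add_mem hηm (pow_mem hηm _))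
  obtain ⟨I, hI⟩ : ∃ I : adjoin ℚ {ω}, I ^ 2 = -1 :=
    ⟨⟨η ^ 2, pow_mem hηm _⟩, Subtype.ext (by push_cast; rw [← pow_mul]; exact hη4)⟩
  obtain ⟨s, hs⟩ : ∃ s : adjoin ℚ {ω}, (s : L) = α ^ 2 ^ (j - 1) := ⟨⟨_, hmem⟩, rfl⟩
  have hs2 : s ^ 2 = 2 := Subtype.ext (by
    push_cast; rw [hs, ← pow_mul, ← pow_succ, Nat.sub_add_cancel hj, hα]; rfl)
  have hns : ∀ b : adjoin ℚ {ω}, b ^ 2 ≠ s := fun b hb =>
    no_fourth_root (M := 2 ^ i) b (by rw [show b ^ 4 = (b ^ 2) ^ 2 by ring, hb, hs2])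
  refine finrank_eq_totient_mul hω htop (by positivity) hs.symm (fun p hp hpd b => ?_)
    (fun _ b hb => hns (2 * I * b ^ 2) ?_)
  · obtain rfl := (Nat.prime_dvd_prime_iff_eq hp Nat.prime_two).1 (hp.dvd_of_dvd_pow hpd)
    exact hns b
  · rw [hb]; linear_combination 4 * b ^ 4 * hI

/-- `√-1` in `ℚ(ω)`, `ω` of order `4`. -/
theorem exists_sqrt_neg_one {ω : L} (hω : IsPrimitiveRoot ω (2 ^ 2)) :
    ∃ I : adjoin ℚ {ω}, I ^ 2 = -1 :=
  ⟨⟨ω, IntermediateField.mem_adjoin_simple_self ℚ ω⟩, Subtype.ext (by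
    push_cast
    exact (hω.pow (by norm_num) (show (2 : ℕ) ^ 2 = 2 * 2 by norm_num)).eq_neg_one_of_two_right)⟩

theorem finrank_two_of_le_two {i j : ℕ} (hi : i ≤ 2) (hji : j ≤ i) {α : L} {ω : L}
    (hω : IsPrimitiveRoot ω (2 ^ i)) (hα : α ^ 2 ^ j = 2)
    (htop : adjoin ℚ {ω, α} = ⊤) : finrank ℚ L = (2 ^ i).totient * 2 ^ j := by
  refine finrank_eq_totient_mul (s := 2) hω htop (by positivity) ?_ (fun p hp hpd b => ?_)
    fun h4 b hb => ?_
  · rw [hα]; rfl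
  · obtain rfl := (Nat.prime_dvd_prime_iff_eq hp Nat.prime_two).1 (hp.dvd_of_dvd_pow hpd)
    exact two_not_sq_of_le_two hi hω b
  · have hj : 2 ≤ j := (Nat.pow_dvd_pow_iff_le_right (x := 2) (k := 2) (by norm_num)).1 h4
    obtain rfl : i = 2 := by omega
    obtain ⟨I, hI⟩ := exists_sqrt_neg_one hω
    refine two_not_sq_of_le_two hi hω (2 * I * b ^ 2) ?_
    linear_combination 4 * b ^ 4 * hI - hb

omit [NeZero M] in
theorem finrank_odd {q i j : ℕ} (hq : q.Prime) (hq2 : q ≠ 2) {a : ℤ}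
    (ha : ∀ c : ℤ, c ^ q ≠ a) {α : L} {ω : L} (hω : IsPrimitiveRoot ω (q ^ i))
    (hα : α ^ q ^ j = (a : L)) (htop : adjoin ℚ {ω, α} = ⊤) :
    finrank ℚ L = (q ^ i).totient * q ^ j := by
  have hq0 := hq.pos
  haveI : NeZero (q ^ i) := ⟨by positivity⟩
  haveI : IsCyclotomicExtension {q ^ i} ℚ (adjoin ℚ {ω}) :=
    hω.intermediateField_adjoin_isCyclotomicExtension ℚ
  have ha0 : a ≠ 0 := fun h => ha 0 (by rw [h, zero_pow hq.ne_zero])
  have hrat : ∀ c : ℚ, c ^ q ≠ (a : ℚ) := fun c hc => by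
    have hint : IsIntegral ℤ c := IsIntegral.of_pow hq.pos (by
      rw [hc]; exact isIntegral_algebraMap (R := ℤ) (A := ℚ) (x := a))
    obtain ⟨z, rfl⟩ := IsIntegrallyClosed.isIntegral_iff.1 hint
    rw [algebraMap_int_eq, eq_intCast, ← Int.cast_pow, Int.cast_inj] at hc
    exact ha z hc
  refine finrank_eq_totient_mul (s := (a : adjoin ℚ {ω})) hω htop (by positivity)
    (by rw [hα]; push_cast; rfl) (fun p hp hpd b => ?_) fun h4 => ?_
  · obtain rfl := (Nat.prime_dvd_prime_iff_eq hp hq).1 (hp.dvd_of_dvd_pow hpd)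
    exact FA.ArtinHooley.not_pow_of_odd (k := p ^ i) ha0 hp hq2 hrat b
  · exfalso
    exact hq2 ((Nat.prime_dvd_prime_iff_eq Nat.prime_two hq).1
      (Nat.prime_two.dvd_of_dvd_pow ((dvd_trans (by norm_num) h4) : 2 ∣ q ^ j))).symm

end FA.HasseEvenOrder

end
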