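import Fermat.Agent.DedekindPrimeIdeals.Split
import Fermat.Agent.ArtinHooley.Split
import Fermat.Agent.Root.SummaryPrimeIdealTheorem
import Mathlib.Analysis.SpecialFunctions.Pow.Asymptotics

/-!
# Natural densities of sets of primes

The primes with a prime ideal of degree one in a Galois number field `L` have natural density
`1 / [L : ℚ]`, by Landau's prime ideal theorem.
-/

set_option autoImplicit false
set_option linter.style.haveILetI false

noncomputable section

open NumberField IsDedekindDomain Module Ideal Filter Topology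
open FA.Hecke (primesLE mem_primesLE)
open scoped Classical

namespace FA.HasseEvenOrder

/-- The primes up to `N` with the property `P`. -/
def primeCount (P : ℕ → Prop) (N : ℕ) : ℕ :=
  ((Finset.Icc 1 N).filter fun p => p.Prime ∧ P p).card

/-- `P` holds for primes of natural density `δ`. -/
def HasPrimeDensity (P : ℕ → Prop) (δ : ℝ) : Prop :=
  Tendsto (fun N : ℕ => (primeCount P N : ℝ) * Real.log N / N) atTop (𝓝 δ)

theorem primeCount_congr {P P' : ℕ → Prop} (h : ∀ p : ℕ, p.Prime → (P p ↔ P' p)) (N : ℕ) :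
    primeCount P N = primeCount P' N :=
  congrArg Finset.card (Finset.filter_congr fun p _ => and_congr_right (h p))

theorem HasPrimeDensity.congr {P P' : ℕ → Prop} {δ : ℝ} (h : HasPrimeDensity P δ)
    (h' : ∀ p : ℕ, p.Prime → (P p ↔ P' p)) : HasPrimeDensity P' δ :=
  Tendsto.congr (fun N => by rw [primeCount_congr h']) h

theorem primeCount_mono {P P' : ℕ → Prop} (h : ∀ p : ℕ, p.Prime → P p → P' p) (N : ℕ) :
    primeCount P N ≤ primeCount P' N :=
  Finset.card_le_card fun p hp => by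
    rw [Finset.mem_filter] at hp ⊢
    exact ⟨hp.1, hp.2.1, h p hp.2.1 hp.2.2⟩

theorem primeCount_add (P Q : ℕ → Prop) (N : ℕ) :
    primeCount (fun p => P p ∧ Q p) N + primeCount (fun p => P p ∧ ¬ Q p) N =
      primeCount P N := by
  rw [primeCount, primeCount, primeCount, ← Finset.card_filter_add_card_filter_not (fun p => Q p)
    (s := (Finset.Icc 1 N).filter fun p => p.Prime ∧ P p), Finset.filter_filter,
    Finset.filter_filter]
  simp only [and_assoc]
  congr! 3

theorem tendsto_const_mul_log_div (c : ℝ) :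
    Tendsto (fun N : ℕ => c * Real.log N / N) atTop (𝓝 0) := by
  have h := ((isLittleO_log_rpow_atTop one_pos).tendsto_div_nhds_zero.comp
    tendsto_natCast_atTop_atTop).const_mul c
  rw [mul_zero] at h
  refine h.congr fun N => ?_
  simp only [Function.comp_apply, Real.rpow_one]
  ring

theorem tendsto_sqrt_mul_log_div :
    Tendsto (fun N : ℕ => √(N : ℝ) * Real.log N / N) atTop (𝓝 0) := by
  have h := (isLittleO_log_rpow_atTop (show (0 : ℝ) < 1 / 2 by norm_num)).tendsto_div_nhds_zero.comp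
    tendsto_natCast_atTop_atTop
  refine h.congr' ?_
  filter_upwards [eventually_gt_atTop 0] with N hN
  have h0 : (0 : ℝ) < √N := Real.sqrt_pos.2 (Nat.cast_pos.2 hN)
  have h1 : √(N : ℝ) * √(N : ℝ) = N := Real.mul_self_sqrt (Nat.cast_nonneg N)
  simp only [Function.comp_apply, ← Real.sqrt_eq_rpow]
  field_simp
  linear_combination -Real.log N * h1

theorem HasPrimeDensity.of_finite {P : ℕ → Prop} (h : {p : ℕ | p.Prime ∧ P p}.Finite) :
    HasPrimeDensity P 0 := by
  refine squeeze_zero (fun N => by positivity) (fun N => ?_)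
    (tendsto_const_mul_log_div (h.toFinset.card : ℝ))
  refine div_le_div_of_nonneg_right (mul_le_mul_of_nonneg_right (Nat.cast_le.2 ?_)
    (Real.log_natCast_nonneg N)) (Nat.cast_nonneg N)
  exact Finset.card_le_card fun p hp => h.mem_toFinset.2 (Finset.mem_filter.1 hp).2

theorem HasPrimeDensity.diff {P Q : ℕ → Prop} {δ δ' : ℝ} (hP : HasPrimeDensity P δ)
    (hQ : HasPrimeDensity Q δ') (h : ∀ p : ℕ, p.Prime → Q p → P p) :
    HasPrimeDensity (fun p => P p ∧ ¬ Q p) (δ - δ') := by
  refine (hP.sub hQ).congr fun N => ?_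
  rw [← primeCount_add P Q N, primeCount_congr (P := fun p => P p ∧ Q p) (P' := Q)
    fun p hp => ⟨fun h => h.2, fun hq => ⟨h p hp hq, hq⟩⟩]
  push_cast
  ring

theorem HasPrimeDensity.union {P Q : ℕ → Prop} {δ δ' : ℝ} (hP : HasPrimeDensity P δ)
    (hQ : HasPrimeDensity Q δ') (h : ∀ p : ℕ, p.Prime → Q p → ¬ P p) :
    HasPrimeDensity (fun p => P p ∨ Q p) (δ + δ') := by
  refine (hP.add hQ).congr fun N => ?_
  rw [← primeCount_add (fun p => P p ∨ Q p) P N,
    primeCount_congr (P := fun p => (P p ∨ Q p) ∧ P p) (P' := P) fun p _ =>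
      ⟨fun h => h.2, fun hp => ⟨Or.inl hp, hp⟩⟩,
    primeCount_congr (P := fun p => (P p ∨ Q p) ∧ ¬ P p) (P' := Q) fun p hp =>
      ⟨fun h => h.1.resolve_left h.2, fun hq => ⟨Or.inr hq, h p hp hq⟩⟩]
  push_cast
  ring

variable (L : Type*) [Field L] [NumberField L]

/-- `p` is the norm of a prime of `L`. -/
def IsNorm (p : ℕ) : Prop := ∃ v : HeightOneSpectrum (𝓞 L), absNorm v.asIdeal = p

theorem ncard_primesOver_le [IsGalois ℚ L] {p : ℕ} (hp : p.Prime) :
    (Ideal.primesOver (span {(p : ℤ)}) (𝓞 L)).ncard ≤ finrank ℚ L := by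
  haveI : (span {(p : ℤ)}).IsMaximal :=
    PrincipalIdealRing.isMaximal_of_irreducible (Nat.prime_iff_prime_int.1 hp).irreducible
  have h := Ideal.ncard_primesOver_mul_ramificationIdxIn_mul_inertiaDegIn (span {(p : ℤ)})
    (𝓞 L) Gal(L/ℚ)
  rw [IsGalois.card_aut_eq_finrank] at h
  exact Nat.le_of_dvd finrank_pos ⟨_, h.symm⟩

theorem card_filter_le [IsGalois ℚ L] {p : ℕ} (hp : p.Prime)
    (T : Finset (HeightOneSpectrum (𝓞 L))) (hT : ∀ v ∈ T, (p : 𝓞 L) ∈ v.asIdeal) :
    T.card ≤ finrank ℚ L := by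
  refine le_trans ?_ (ncard_primesOver_le L hp)
  rw [← Set.ncard_coe_finset, ← Set.ncard_image_of_injective _
    (fun _ _ h => HeightOneSpectrum.ext h : Function.Injective fun v :
      HeightOneSpectrum (𝓞 L) => v.asIdeal)]
  haveI : (span {(p : ℤ)}).IsMaximal :=
    PrincipalIdealRing.isMaximal_of_irreducible (Nat.prime_iff_prime_int.1 hp).irreducible
  refine Set.ncard_le_ncard ?_ (Algebra.QuasiFinite.finite_primesOver _)
  rintro _ ⟨v, hv, rfl⟩
  exact ⟨v.isPrime, ⟨(FA.FrobeniusDensity.under_eq hp v.isPrime.ne_top (hT v hv)).symm⟩⟩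

theorem card_norm_prime [IsGalois ℚ L] {p N : ℕ} (hp : p.Prime) (hd : ¬ (p : ℤ) ∣ discr L)
    (hN : p ≤ N) (h : IsNorm L p) :
    ((primesLE L N).filter fun v => absNorm v.asIdeal = p).card = finrank ℚ L := by
  obtain ⟨w, hw⟩ := h
  haveI : (span {(p : ℤ)}).IsMaximal :=
    PrincipalIdealRing.isMaximal_of_irreducible (Nat.prime_iff_prime_int.1 hp).irreducible
  rw [← FA.DedekindPIT.split_of_norm_prime L hp hd w hw, ← Set.ncard_coe_finset,
    ← Set.ncard_image_of_injective _ (fun _ _ h => HeightOneSpectrum.ext h : Function.Injective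
      fun v : HeightOneSpectrum (𝓞 L) => v.asIdeal)]
  congr 1
  ext P
  constructor
  · rintro ⟨v, hv, rfl⟩
    rw [Finset.mem_coe, Finset.mem_filter] at hv
    exact ⟨v.isPrime, ⟨(FA.FrobeniusDensity.under_eq hp v.isPrime.ne_top
      (by simpa [hv.2] using Ideal.absNorm_mem v.asIdeal)).symm⟩⟩
  · rintro ⟨hP, hover⟩
    have hbot : P ≠ ⊥ := Ideal.ne_bot_of_liesOver_of_ne_bot
      (show (span {(p : ℤ)}) ≠ ⊥ by simpa using hp.ne_zero) P
    have hwover : w.asIdeal.LiesOver (span {(p : ℤ)}) :=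
      ⟨(FA.FrobeniusDensity.under_eq hp w.isPrime.ne_top
        (by simpa [hw] using Ideal.absNorm_mem w.asIdeal)).symm⟩
    obtain ⟨σ, hσ⟩ := Algebra.IsInvariant.exists_smul_of_under_eq ℤ (𝓞 L) Gal(L/ℚ)
      w.asIdeal P (hwover.over.symm.trans hover.over)
    refine ⟨⟨P, hP, hbot⟩, ?_, rfl⟩
    rw [Finset.mem_coe, Finset.mem_filter, mem_primesLE]
    have he : absNorm P = p := by
      rw [← hw, hσ, Ideal.absNorm_apply, Ideal.absNorm_apply, Submodule.cardQuot_apply,
        Submodule.cardQuot_apply]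
      exact (Nat.card_congr (Ideal.quotientEquiv w.asIdeal _
        (MulSemiringAction.toRingEquiv _ (𝓞 L) σ) rfl).toEquiv).symm
    exact ⟨he.trans_le hN, he⟩

theorem abs_card_sub_mul_count_le [IsGalois ℚ L] (N : ℕ) :
    |((primesLE L N).card : ℝ) - finrank ℚ L * primeCount (IsNorm L) N| ≤
      finrank ℚ L * (√(N : ℝ) + (discr L).natAbs.primeFactors.card) := by
  obtain ⟨n, hn⟩ : ∃ n, n = finrank ℚ L := ⟨_, rfl⟩
  obtain ⟨S, hS⟩ : ∃ S, S = primesLE L N := ⟨_, rfl⟩
  obtain ⟨G, hG⟩ : ∃ G, G = (Finset.Icc 1 N).filter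
      fun p => p.Prime ∧ IsNorm L p ∧ ¬ (p : ℤ) ∣ discr L := ⟨_, rfl⟩
  obtain ⟨T, hT⟩ : ∃ T, T = (Finset.Icc 1 N).filter fun p => p.Prime ∧ IsNorm L p := ⟨_, rfl⟩
  rw [← hS, ← hn, primeCount, ← hT]
  obtain ⟨V, hV⟩ : ∃ V, V = S.filter fun v => absNorm v.asIdeal ∈ G := ⟨_, rfl⟩
  have hVcard : V.card = G.card * n := by
    rw [Finset.card_eq_sum_card_fiberwise (f := fun v => absNorm v.asIdeal) (t := G)
      fun v hv => by
        rw [hV, Finset.mem_coe, Finset.mem_filter] at hv
        exact hv.2, Finset.sum_eq_card_nsmul (b := n) fun p hp => ?_, smul_eq_mul]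
    have hpG := hp
    rw [hG, Finset.mem_filter, Finset.mem_Icc] at hp
    rw [hn, ← card_norm_prime L hp.2.1 hp.2.2.2 hp.1.2 hp.2.2.1, hV, hS, Finset.filter_filter]
    exact congrArg Finset.card (Finset.filter_congr fun v _ =>
      ⟨fun h => h.2, fun h => ⟨h.symm ▸ hpG, h⟩⟩)
  obtain ⟨E, hE⟩ : ∃ E, E = (discr L).natAbs.primeFactors ∪ Finset.Icc 1 (Nat.sqrt N) :=
    ⟨_, rfl⟩
  have hrest : (S \ V).card ≤ E.card * n := by
    refine (Finset.card_le_mul_card_image_of_maps_to (s := S \ V) (t := E)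
      (f := fun v : HeightOneSpectrum (𝓞 L) => (absNorm v.asIdeal).minFac)
      (fun v hv => ?_) n fun p hp => ?_).trans (le_of_eq (mul_comm _ _))
    · obtain ⟨p, f, hp, hf, he, hpv⟩ := FA.ArtinHooley.exists_norm_eq_pow v
      rw [Finset.mem_sdiff, hV, Finset.mem_filter, hS, mem_primesLE] at hv
      show (absNorm v.asIdeal).minFac ∈ E
      rw [he, Nat.Prime.pow_minFac hp (by omega), hE, Finset.mem_union, Nat.mem_primeFactors,
        Finset.mem_Icc]
      by_cases hpd : (p : ℤ) ∣ discr L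
      · exact Or.inl ⟨hp, Int.natCast_dvd.1 hpd, Int.natAbs_ne_zero.2 (discr_ne_zero L)⟩
      refine Or.inr ⟨hp.one_le, Nat.le_sqrt'.2 ((Nat.pow_le_pow_right hp.pos ?_).trans
        (he ▸ hv.1))⟩
      by_contra hf2
      obtain rfl : f = 1 := by omega
      rw [pow_one] at he
      refine hv.2 ⟨hv.1, ?_⟩
      rw [he, hG, Finset.mem_filter, Finset.mem_Icc]
      exact ⟨⟨hp.one_le, he ▸ hv.1⟩, hp, ⟨v, he⟩, hpd⟩
    · by_cases hpp : p.Prime
      · refine (card_filter_le L hpp _ fun v hv => ?_).trans_eq hn.symm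
        obtain ⟨q, f, hq, hf, he, hqv⟩ := FA.ArtinHooley.exists_norm_eq_pow v
        rw [Finset.mem_filter, he, Nat.Prime.pow_minFac hq (by omega)] at hv
        rwa [← hv.2]
      · rw [Finset.card_eq_zero.2 (Finset.filter_eq_empty_iff.2 fun v _ e => hpp ?_)]
        · exact Nat.zero_le _
        · rw [← e]
          exact Nat.minFac_prime fun h1 => v.isPrime.ne_top (Ideal.absNorm_eq_one_iff.1 h1)
  have hVS : V ⊆ S := hV ▸ Finset.filter_subset _ _
  have hScard : S.card = (S \ V).card + V.card :=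
    (Finset.card_sdiff_add_card_eq_card hVS).symm
  have hGT : G.card ≤ T.card := Finset.card_le_card fun p hp => by
    rw [hG, Finset.mem_filter] at hp
    exact hT ▸ Finset.mem_filter.2 ⟨hp.1, hp.2.1, hp.2.2.1⟩
  have hTG : T.card ≤ G.card + (discr L).natAbs.primeFactors.card := by
    refine le_trans (Finset.card_le_card fun p hp => ?_) (Finset.card_union_le _ _)
    rw [hT, Finset.mem_filter] at hp
    rw [Finset.mem_union, hG, Finset.mem_filter, Nat.mem_primeFactors]
    by_cases hpd : (p : ℤ) ∣ discr L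
    · exact Or.inr ⟨hp.2.1, Int.natCast_dvd.1 hpd, Int.natAbs_ne_zero.2 (discr_ne_zero L)⟩
    · exact Or.inl ⟨hp.1, hp.2.1, hp.2.2, hpd⟩
  have hEle : (E.card : ℝ) ≤ (discr L).natAbs.primeFactors.card + √(N : ℝ) := by
    have h1 : E.card ≤ (discr L).natAbs.primeFactors.card + Nat.sqrt N := by
      rw [hE]
      exact (Finset.card_union_le _ _).trans (by rw [Nat.card_Icc, Nat.add_sub_cancel])
    exact (Nat.cast_le.2 h1).trans (by push_cast; linarith [Real.nat_sqrt_le_real_sqrt (a := N)])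
  have e1 : (S.card : ℝ) = ((S \ V).card : ℝ) + G.card * n := by
    rw [hScard, hVcard]; push_cast; rfl
  have e2 : ((S \ V).card : ℝ) ≤ E.card * n := by exact_mod_cast hrest
  have e3 : (G.card : ℝ) * n ≤ T.card * n :=
    mul_le_mul_of_nonneg_right (Nat.cast_le.2 hGT) (Nat.cast_nonneg n)
  have e4 : (T.card : ℝ) * n ≤ (G.card + (discr L).natAbs.primeFactors.card) * n :=
    mul_le_mul_of_nonneg_right (by exact_mod_cast hTG) (Nat.cast_nonneg n)
  have e5 := mul_le_mul_of_nonneg_right hEle (Nat.cast_nonneg (α := ℝ) n)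
  have e6 : (0 : ℝ) ≤ (n : ℝ) * √(N : ℝ) := by positivity
  rw [abs_le]
  constructor <;> linarith [Nat.cast_nonneg (α := ℝ) (S \ V).card]

/-- **The primes with a prime of degree one in `L`.** -/
theorem hasPrimeDensity_isNorm [IsGalois ℚ L] :
    HasPrimeDensity (IsNorm L) (1 / finrank ℚ L) := by
  obtain ⟨n, hn⟩ : ∃ n : ℝ, n = (finrank ℚ L : ℝ) := ⟨_, rfl⟩
  have hn0 : 0 < n := hn ▸ Nat.cast_pos.2 finrank_pos
  have hpit := (FA.Summary.prime_ideal_theorem L).comp tendsto_natCast_atTop_atTop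
  have h1 : Tendsto (fun N : ℕ => ((primesLE L N).card : ℝ) * Real.log N / N) atTop (𝓝 1) := by
    refine hpit.congr fun N => ?_
    simp only [Function.comp_apply]
    congr 2
    rw [← Nat.card_eq_finsetCard, Nat.cast_inj]
    exact Nat.card_congr (Equiv.subtypeEquivRight fun v => by rw [mem_primesLE, Nat.cast_le])
  have h2 : Tendsto (fun N : ℕ => ((primesLE L N).card - n * primeCount (IsNorm L) N) *
      Real.log N / N) atTop (𝓝 0) := by
    have hz := ((tendsto_sqrt_mul_log_div.add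
      (tendsto_const_mul_log_div ((discr L).natAbs.primeFactors.card : ℝ))).const_mul n)
    rw [add_zero, mul_zero] at hz
    refine squeeze_zero_norm (fun N => ?_) hz
    rw [Real.norm_eq_abs, abs_div, abs_mul, Nat.abs_cast,
      abs_of_nonneg (Real.log_natCast_nonneg N)]
    refine (div_le_div_of_nonneg_right (mul_le_mul_of_nonneg_right
      (hn ▸ abs_card_sub_mul_count_le L N) (Real.log_natCast_nonneg N))
      (Nat.cast_nonneg N)).trans_eq ?_
    rw [hn]
    ring
  have h3 := (h1.sub h2).const_mul (1 / n)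
  rw [sub_zero, mul_one, hn] at h3
  refine h3.congr fun N => ?_
  rw [← hn]
  field_simp
  ring

theorem hasPrimeDensity_true : HasPrimeDensity (fun _ => True) 1 := by
  haveI : @IsGalois ℚ _ ℚ _ DivisionRing.toRatAlgebra := by
    rw [Subsingleton.elim (DivisionRing.toRatAlgebra : Algebra ℚ ℚ) (Algebra.id ℚ)]
    exact IsGalois.self ℚ
  have h := hasPrimeDensity_isNorm ℚ
  rw [Module.finrank_self, Nat.cast_one, div_one] at h
  refine h.congr fun p hp => iff_true_intro ?_
  obtain ⟨P, hP, hP'⟩ := Ideal.exists_le_maximal (span {(p : 𝓞 ℚ)}) fun e => by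
    rw [Ideal.span_singleton_eq_top] at e
    have h1 := Int.isUnit_iff_natAbs_eq.1 (IsUnit.map (Algebra.norm ℤ) e)
    rw [show (p : 𝓞 ℚ) = algebraMap ℤ (𝓞 ℚ) p by simp, Algebra.norm_algebraMap,
      RingOfIntegers.rank, Module.finrank_self, pow_one, Int.natAbs_natCast] at h1
    exact hp.ne_one h1
  have hmem : (p : 𝓞 ℚ) ∈ P := hP' (Ideal.mem_span_singleton_self _)
  refine ⟨⟨P, hP.isPrime, fun e => hp.ne_zero ?_⟩, ?_⟩
  · rw [e, Ideal.mem_bot] at hmem
    exact_mod_cast hmem
  have h2 := Ideal.absNorm_dvd_absNorm_of_le hP'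
  rw [Ideal.absNorm_span_singleton, show (p : 𝓞 ℚ) = algebraMap ℤ (𝓞 ℚ) p by simp,
    Algebra.norm_algebraMap, RingOfIntegers.rank, Module.finrank_self, pow_one,
    Int.natAbs_natCast] at h2
  exact (hp.eq_one_or_self_of_dvd _ h2).resolve_left fun h => hP.ne_top
    (Ideal.absNorm_eq_one_iff.1 h)

theorem tendsto_ratio {P : ℕ → Prop} {δ : ℝ} (h : HasPrimeDensity P δ) :
    Tendsto (fun N : ℕ => (primeCount P N : ℝ) / primeCount (fun _ => True) N) atTop (𝓝 δ) := by
  have h1 := Tendsto.div h hasPrimeDensity_true one_ne_zero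
  rw [div_one] at h1
  refine h1.congr' ?_
  filter_upwards [eventually_gt_atTop 1] with N hN
  have hl : Real.log N / N ≠ 0 :=
    div_ne_zero (Real.log_pos (Nat.one_lt_cast.2 hN)).ne' (Nat.cast_ne_zero.2 (by omega))
  rw [Pi.div_apply, mul_div_assoc _ (Real.log _), mul_div_assoc _ (Real.log _),
    mul_div_mul_right _ _ hl]

end FA.HasseEvenOrder

end
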